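import Fermat.Agent.LT.A2.H467.WeilExSpec

/-!
# Row LT, tower A2, leaf A2.03.1.7 `WX467.StdLocC` (helper915)

OFF-MAIN.  On `LT/A2/H467/WeilExSpec.lean` (helper467, byte-identical copy, sha256 966c0978...).
No hole, nothing assumed.

    stdLocC915 : Fermat.Agent.LT.A2.WX467.StdLocC

For good product data `L` the global family is the product of the local ones:
`L.F g m ξ = ∏_u F_u(g_u, m_u, ξ_u) · ∏ᶠ_v F_v(g_v, m_v, ξ_v)`.

* `cpx`: for `g`, `m` trivial at the infinite place `u` the factor at `u` is the Gaussian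
  (`CpxAt.gauss`), the other factors do not see `ξ_u`.
* `good_std`: for `g`, `m` trivial at the good place `v` the factor at `v` is `stdFn v`
  (`GoodAt.std`), the other factors do not see `ξ_v`.  For the vanishing the product over the
  finite places has to be a genuine (finite) product: at almost all `v'` the level is trivial,
  `g_{v'} ∈ GL₂(𝒪_{v'})`, `m_{v'} ∈ T(𝒪_{v'})` and `ξ_{v'}` is integral, so that the factor is
  `F_{v'}(1, 1)(ξ_{v'}) = 1` by `FinAt.right_inv`, `GoodAt.tlev`, `GoodAt.std`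
  (`factor_eq_one915`, `hasFiniteMulSupport915`).  The closure of the level at a place not
  dividing it is `𝒪_v` (`dense_ideal915`).
-/

set_option autoImplicit false

open IsDedekindDomain NumberField AutomorphicForm MeasureTheory
open IsDedekindDomain.HeightOneSpectrum
open scoped MatrixGroups Topology

noncomputable section

namespace Fermat.Agent.LT.A2.H915

open Fermat.Agent.LT.H130 Fermat.Agent.LT.H556 Fermat.Agent.LT.A2 Fermat.Agent.LT.A2.WX467

variable {K : Type} [Field K] [NumberField K]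

/-! ## Components at a finite place -/

/-- The component at the finite place `v`, as a ring homomorphism. -/
def evF915 (v : HeightOneSpectrum (𝓞 K)) : A0.Adl K →+* v.adicCompletion K :=
  (RestrictedProduct.evalRingHom (fun v : HeightOneSpectrum (𝓞 K) => v.adicCompletion K) v).comp
    (RingHom.snd _ _)

theorem evF915_apply (v : HeightOneSpectrum (𝓞 K)) (x : A0.Adl K) : evF915 v x = x.2 v := rfl

theorem evF915_algebraMap (v : HeightOneSpectrum (𝓞 K)) (t : K) :
    evF915 v (algebraMap K (A0.Adl K) t) = algebraMap K (v.adicCompletion K) t := rfl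

theorem finComp_eq_map915 (v : HeightOneSpectrum (𝓞 K)) (g : A0.G K) :
    A0.finComp v g = (evF915 v).mapMatrix (g : Matrix (Fin 2) (Fin 2) (A0.Adl K)) := rfl

theorem finComp_mul915 (v : HeightOneSpectrum (𝓞 K)) (g h : A0.G K) :
    A0.finComp v (g * h) = A0.finComp v g * A0.finComp v h := by
  rw [finComp_eq_map915, finComp_eq_map915, finComp_eq_map915, Units.val_mul, map_mul]

theorem finComp_one915 (v : HeightOneSpectrum (𝓞 K)) : A0.finComp v (1 : A0.G K) = 1 := by
  rw [finComp_eq_map915, Units.val_one, map_one]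

theorem finComp_mul_inv915 (v : HeightOneSpectrum (𝓞 K)) (g : A0.G K) :
    A0.finComp v g * A0.finComp v g⁻¹ = 1 := by
  rw [← finComp_mul915, mul_inv_cancel, finComp_one915]

theorem finComp_inv915 (v : HeightOneSpectrum (𝓞 K)) (g : A0.G K) :
    (A0.finComp v g)⁻¹ = A0.finComp v g⁻¹ :=
  Matrix.inv_eq_right_inv (finComp_mul_inv915 v g)

theorem finComp_det915 (v : HeightOneSpectrum (𝓞 K)) (g : A0.G K) :
    (A0.finComp v g).det
      = ((Matrix.GeneralLinearGroup.det g : (A0.Adl K)ˣ) : A0.Adl K).2 v := by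
  rw [finComp_eq_map915, ← RingHom.map_det, Matrix.GeneralLinearGroup.val_det_apply]
  rfl

theorem finComp_det_ne_zero915 (v : HeightOneSpectrum (𝓞 K)) (g : A0.G K) :
    (A0.finComp v g).det ≠ 0 := by
  intro h
  have h1 := congrArg Matrix.det (finComp_mul_inv915 v g)
  rw [Matrix.det_mul, h, zero_mul, Matrix.det_one] at h1
  exact zero_ne_one h1

/-- The components of an adele are integral at almost all finite places. -/
theorem eventually_entry_integral915 (x : A0.Adl K) :
    ∀ᶠ v : HeightOneSpectrum (𝓞 K) in Filter.cofinite, x.2 v ∈ v.adicCompletionIntegers K :=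
  x.2.2

/-- The components of an element of `GL₂(𝔸_K)` are integral at almost all finite places. -/
theorem eventually_finComp_integral915 (g : A0.G K) :
    ∀ᶠ v : HeightOneSpectrum (𝓞 K) in Filter.cofinite,
      ∀ i j : Fin 2, A0.finComp v g i j ∈ v.adicCompletionIntegers K := by
  rw [Filter.eventually_all]
  intro i
  rw [Filter.eventually_all]
  intro j
  exact eventually_entry_integral915 _

theorem map_torMat915 {R S : Type*} [CommRing R] [CommRing S] (f : R →+* S) (t n a b : R) :
    f.mapMatrix (torMat t n a b) = torMat (f t) (f n) (f a) (f b) := by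
  ext i j
  fin_cases i <;> fin_cases j <;> simp [torMat]

/-- The component at `v` of an element of the adelic torus lies in the local torus. -/
theorem inTorL_of_inTorus915 (L : WData K) (v : HeightOneSpectrum (𝓞 K)) {m : A0.G K}
    (hm : InTorus L.t L.n m) : InTorL (L.tfin v) (L.nfin v) (A0.finComp v m) := by
  obtain ⟨a, b, hab⟩ := hm
  refine ⟨evF915 v a, evF915 v b, ?_⟩
  rw [finComp_eq_map915, hab, map_torMat915, evF915_algebraMap, evF915_algebraMap]
  rfl

theorem admL_one915 {k : Type} [Field k] (t n : k) : AdmL t n 1 1 := by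
  refine ⟨⟨1, 0, ?_⟩, rfl, ?_⟩
  · ext i j
    fin_cases i <;> fin_cases j <;> simp [torMat]
  · simp

theorem one_entry_integral915 (v : HeightOneSpectrum (𝓞 K)) (i j : Fin 2) :
    (1 : Matrix (Fin 2) (Fin 2) (v.adicCompletion K)) i j ∈ v.adicCompletionIntegers K := by
  rw [Matrix.one_apply]
  split_ifs
  · exact one_mem _
  · exact zero_mem _

/-! ## The closure of the level at a good place -/

/-- `𝓞 K` is dense in `𝒪_v`: every neighbourhood of an element of `𝒪_v` contains a global
integer. -/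
theorem exists_int_mem_nhds915 (v : HeightOneSpectrum (𝓞 K)) {x : v.adicCompletion K}
    (hx : Valued.v x ≤ 1) {t : Set (v.adicCompletion K)} (ht : t ∈ nhds x) :
    ∃ a : 𝓞 K, ((algebraMap (𝓞 K) K a : K) : v.adicCompletion K) ∈ t := by
  have hB : {z : v.adicCompletion K | Valued.v (z - x) < 1} ∈ nhds x := by
    rw [Valued.mem_nhds]
    refine ⟨1, fun w hw => ?_⟩
    simpa using hw
  have hint : interior t ∩ {z : v.adicCompletion K | Valued.v (z - x) < 1} ∈ nhds x :=
    Filter.inter_mem (interior_mem_nhds.mpr ht) hB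
  have hx' : x ∈ closure (Set.range (algebraMap K (v.adicCompletion K))) := by
    rw [(denseRange_algebraMap (K := K) v).closure_range]; exact Set.mem_univ x
  obtain ⟨_, ⟨hkt, hkB⟩, ⟨k, rfl⟩⟩ := mem_closure_iff_nhds.mp hx' _ hint
  have hk' : Valued.v (algebraMap K (v.adicCompletion K) k - x) < 1 := hkB
  have hk1 : v.valuation K k ≤ 1 := by
    rw [← valuedAdicCompletion_eq_valuation']
    have : ((k : K) : v.adicCompletion K) = (algebraMap K (v.adicCompletion K) k - x) + x := by
      have h1 : ((k : K) : v.adicCompletion K) = algebraMap K (v.adicCompletion K) k := rfl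
      rw [h1]; ring
    rw [this]
    exact le_trans (Valuation.map_add _ _ _) (max_le hk'.le hx)
  have htk : interior t ∈ nhds (algebraMap K (v.adicCompletion K) k) :=
    isOpen_interior.mem_nhds hkt
  rw [Valued.mem_nhds] at htk
  obtain ⟨γ, hγ⟩ := htk
  have hγ0 : MonoidWithZeroHom.ValueGroup₀.embedding γ.1 ≠ 0 := by
    intro h
    have h1 := (MonoidWithZeroHom.ValueGroup₀.embedding_strictMono
      (f := MonoidWithZeroHom.ofClass (Valued.v : Valuation (v.adicCompletion K) _))).injective
      (h.trans (map_zero _).symm)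
    exact γ.ne_zero h1
  obtain ⟨a, ha⟩ := exists_valuation_sub_lt_of_integer v hk1 (Units.mk0 _ hγ0)
  refine ⟨a, interior_subset (hγ ?_)⟩
  show (Valued.v : Valuation (v.adicCompletion K) _).restrict
    (((algebraMap (𝓞 K) K a : K) : v.adicCompletion K) - algebraMap K (v.adicCompletion K) k)
      < γ.1
  rw [Valuation.restrict_lt_iff_lt_embedding]
  have e : ((algebraMap (𝓞 K) K a : K) : v.adicCompletion K)
      - algebraMap K (v.adicCompletion K) k
      = ((algebraMap (𝓞 K) K a - k : K) : v.adicCompletion K) :=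
    (map_sub (algebraMap K (v.adicCompletion K)) _ _).symm
  rw [e, valuedAdicCompletion_eq_valuation']
  simpa using ha

/-- For `v ∤ 𝔫` the ideal `𝔫` is dense in `𝒪_v`. -/
theorem dense_ideal915 {𝔫 : Ideal (𝓞 K)} {v : HeightOneSpectrum (𝓞 K)}
    (hv : ¬ v.asIdeal ∣ 𝔫) {x : v.adicCompletion K} (hx : x ∈ v.adicCompletionIntegers K) :
    x ∈ A0.idealClosure 𝔫 v := by
  have hx1 : Valued.v x ≤ 1 := hx
  have hnle : ¬ 𝔫 ≤ v.asIdeal := fun h => hv (Ideal.dvd_iff_le.mpr h)
  obtain ⟨s, hs𝔫, hsv⟩ := Set.not_subset.mp hnle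
  have hsval : Valued.v (((algebraMap (𝓞 K) K s : K) : v.adicCompletion K)) = 1 := by
    rw [valuedAdicCompletion_eq_valuation', valuation_eq_one_iff_notMem]
    exact hsv
  set S : v.adicCompletion K := ((algebraMap (𝓞 K) K s : K) : v.adicCompletion K) with hS
  have hS0 : S ≠ 0 := by
    intro h
    rw [h, map_zero] at hsval
    exact zero_ne_one hsval
  unfold A0.idealClosure
  rw [mem_closure_iff_nhds]
  intro t ht
  have hxs : Valued.v (x / S) ≤ 1 := by
    rw [map_div₀, hsval, div_one]; exact hx1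
  have hcont : Filter.Tendsto (fun z : v.adicCompletion K => z * S) (nhds (x / S)) (nhds x) := by
    have h1 : Continuous (fun z : v.adicCompletion K => z * S) := continuous_mul_const S
    have h2 := h1.tendsto (x / S)
    rwa [div_mul_cancel₀ x hS0] at h2
  obtain ⟨a, ha⟩ := exists_int_mem_nhds915 v hxs (hcont ht)
  refine ⟨((algebraMap (𝓞 K) K a : K) : v.adicCompletion K) * S, ha, a * s,
    𝔫.mul_mem_left a hs𝔫, ?_⟩
  show algebraMap K (v.adicCompletion K) (algebraMap (𝓞 K) K (a * s))
    = algebraMap K (v.adicCompletion K) (algebraMap (𝓞 K) K a)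
      * algebraMap K (v.adicCompletion K) (algebraMap (𝓞 K) K s)
  rw [map_mul, map_mul]

/-! ## The factors at almost all places -/

/-- At a good place `v` where `g`, `g⁻¹`, `m`, `m⁻¹` are integral the factor at `v` is `1` on the
integral vectors. -/
theorem factor_eq_one915 (L : WData K) (hgood : L.IsGood) (v : HeightOneSpectrum (𝓞 K))
    (hv : ¬ v.asIdeal ∣ L.π.level) (g m : A0.G K) (hadm : Adm L.t L.n g m)
    (hg : ∀ i j : Fin 2, A0.finComp v g i j ∈ v.adicCompletionIntegers K)
    (hg' : ∀ i j : Fin 2, A0.finComp v g⁻¹ i j ∈ v.adicCompletionIntegers K)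
    (hm : ∀ i j : Fin 2, A0.finComp v m i j ∈ v.adicCompletionIntegers K)
    (hm' : ∀ i j : Fin 2, A0.finComp v m⁻¹ i j ∈ v.adicCompletionIntegers K)
    (ζ : v.adicCompletion K × v.adicCompletion K)
    (hζ : ζ.1 ∈ v.adicCompletionIntegers K ∧ ζ.2 ∈ v.adicCompletionIntegers K) :
    L.Ffin v (A0.finComp v g) (A0.finComp v m) ζ = 1 := by
  have hG := hgood.good v hv
  have hF := hgood.fin v
  have hk : InLevL L.π.level v (A0.finComp v g) := by
    refine ⟨finComp_det_ne_zero915 v g, fun i j => ⟨dense_ideal915 hv ?_, dense_ideal915 hv ?_⟩⟩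
    · rw [Matrix.sub_apply]
      exact sub_mem (hg i j) (one_entry_integral915 v i j)
    · rw [finComp_inv915, Matrix.sub_apply]
      exact sub_mem (hg' i j) (one_entry_integral915 v i j)
  have hκ : A0.finComp v m ∈ L.Tlev v := by
    rw [hG.tlev]
    refine ⟨inTorL_of_inTorus915 L v hadm.1, finComp_det_ne_zero915 v m, hm, ?_⟩
    rw [finComp_inv915]
    exact hm'
  have hdet : (A0.finComp v g).det = (A0.finComp v m).det := by
    rw [finComp_det915, finComp_det915, hadm.2]
  have h := hF.right_inv _ _ hk hκ hdet 1 1 ζ (admL_one915 _ _)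
  rw [one_mul, one_mul] at h
  rw [h, hG.std]
  unfold stdFn
  rw [if_pos hζ]

/-- The product over the finite places is a finite product. -/
theorem hasFiniteMulSupport915 (L : WData K) (hgood : L.IsGood) (hlev : L.π.level ≠ ⊥)
    (g m : A0.G K) (hadm : Adm L.t L.n g m) (ξ : A0.Adl K × A0.Adl K) :
    (Function.mulSupport (fun v : HeightOneSpectrum (𝓞 K) =>
      L.Ffin v (A0.finComp v g) (A0.finComp v m) (finVec v ξ))).Finite := by
  have hev : ∀ᶠ v : HeightOneSpectrum (𝓞 K) in Filter.cofinite,
      L.Ffin v (A0.finComp v g) (A0.finComp v m) (finVec v ξ) = 1 := by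
    have h0 : ∀ᶠ v : HeightOneSpectrum (𝓞 K) in Filter.cofinite, ¬ v.asIdeal ∣ L.π.level := by
      rw [Filter.eventually_cofinite]
      simp only [not_not]
      exact Ideal.finite_factors hlev
    filter_upwards [h0, eventually_finComp_integral915 g, eventually_finComp_integral915 g⁻¹,
      eventually_finComp_integral915 m, eventually_finComp_integral915 m⁻¹,
      eventually_entry_integral915 ξ.1, eventually_entry_integral915 ξ.2]
      with v hv hg hg' hm hm' hξ1 hξ2
    exact factor_eq_one915 L hgood v hv g m hadm hg hg' hm hm' _ ⟨hξ1, hξ2⟩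
  exact Filter.eventually_cofinite.mp hev

/-! ## The two fields -/

theorem good_std915 (L : WData K) (hgood : L.IsGood) (v : HeightOneSpectrum (𝓞 K))
    (hv : ¬ v.asIdeal ∣ L.π.level) (g m : A0.G K) (hadm : Adm L.t L.n g m)
    (hg : A0.TrivAtFin v g) (hm : A0.TrivAtFin v m) :
    (∀ ξ : A0.Adl K × A0.Adl K, ¬ WL.VecIntegralAt v ξ → L.F g m ξ = 0) ∧
      ∀ ξ ξ' : A0.Adl K × A0.Adl K, WL.AgreeOffFin v ξ ξ' → WL.VecIntegralAt v ξ →
        WL.VecIntegralAt v ξ' → L.F g m ξ = L.F g m ξ' := by
  have hg1 : A0.finComp v g = 1 := hg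
  have hm1 : A0.finComp v m = 1 := hm
  have hstd := (hgood.good v hv).std
  refine ⟨fun ξ hξ => ?_, fun ξ ξ' hagree hξ hξ' => ?_⟩
  · have hlev : L.π.level ≠ ⊥ := by
      intro h
      apply hv
      rw [h]
      exact dvd_zero _
    have hfin := hasFiniteMulSupport915 L hgood hlev g m hadm ξ
    have hz : L.Ffin v (A0.finComp v g) (A0.finComp v m) (finVec v ξ) = 0 := by
      rw [hg1, hm1, hstd]
      unfold stdFn
      rw [if_neg]
      exact hξ
    show prodFn _ _ ξ = 0
    unfold prodFn
    rw [finprod_eq_zero _ v hz hfin, mul_zero]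
  · have hinf : ∀ u : InfinitePlace K, infVec u ξ = infVec u ξ' := fun u =>
      Prod.ext (hagree.1 u).1 (hagree.1 u).2
    have hfin : ∀ v' : HeightOneSpectrum (𝓞 K),
        L.Ffin v' (A0.finComp v' g) (A0.finComp v' m) (finVec v' ξ)
          = L.Ffin v' (A0.finComp v' g) (A0.finComp v' m) (finVec v' ξ') := by
      intro v'
      by_cases h : v' = v
      · subst h
        rw [hg1, hm1, hstd]
        unfold stdFn
        rw [if_pos, if_pos]
        · exact hξ'
        · exact hξ
      · have h2 : finVec v' ξ = finVec v' ξ' := Prod.ext (hagree.2 v' h).1 (hagree.2 v' h).2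
        rw [h2]
    show prodFn _ _ ξ = prodFn _ _ ξ'
    unfold prodFn
    simp only [hinf, hfin]

theorem cpx915 (L : WData K) (hgood : L.IsGood) (u : InfinitePlace K) :
    ∃ c : ℂ, c ≠ 0 ∧
    (∀ x : A0.Adl K, WL.AdlAtInf u x → L.ψ x = Complex.exp (4 * Real.pi * Complex.I *
        (((c * InfinitePlace.Completion.extensionEmbedding u (x.1 u)).re : ℝ) : ℂ))) ∧
    ∀ ω₁ ω₂ : ℂ, ω₁ + ω₂ = u.embedding L.t → ω₁ * ω₂ = u.embedding L.n →
      ∀ g m : A0.G K, Adm L.t L.n g m → A0.TrivAtInf u g → A0.TrivAtInf u m →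
        ∀ ξ ξ' : A0.Adl K × A0.Adl K, WL.AgreeOffInf u ξ ξ' →
          L.F g m ξ * WL.gauss u c ω₁ ω₂ ξ' = L.F g m ξ' * WL.gauss u c ω₁ ω₂ ξ := by
  classical
  obtain ⟨c, hc, hψ, hG⟩ := (hgood.cpx u).gauss
  refine ⟨c, hc, fun x hx => ?_, ?_⟩
  · rw [(hgood.cpx u).psi x hx]
    exact hψ (x.1 u)
  · intro ω₁ ω₂ h1 h2 g m _ hg hm ξ ξ' hξ
    have hg1 : infMat u g = 1 := Matrix.ext fun i j => hg i j
    have hm1 : infMat u m = 1 := Matrix.ext fun i j => hm i j
    have hfin : ∀ v : HeightOneSpectrum (𝓞 K),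
        L.Ffin v (A0.finComp v g) (A0.finComp v m) (finVec v ξ)
          = L.Ffin v (A0.finComp v g) (A0.finComp v m) (finVec v ξ') := by
      intro v
      have h3 : finVec v ξ = finVec v ξ' := Prod.ext (hξ.2 v).1 (hξ.2 v).2
      rw [h3]
    have hu : ∀ ζ : A0.Adl K × A0.Adl K,
        L.Finf u (infMat u g) (infMat u m) (infVec u ζ) = WL.gauss u c ω₁ ω₂ ζ := by
      intro ζ
      rw [hg1, hm1, hG ω₁ ω₂ h1 h2]
      rfl
    have hrest : ∏ u' ∈ (Finset.univ.erase u),
          L.Finf u' (infMat u' g) (infMat u' m) (infVec u' ξ)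
        = ∏ u' ∈ (Finset.univ.erase u),
          L.Finf u' (infMat u' g) (infMat u' m) (infVec u' ξ') := by
      apply Finset.prod_congr rfl
      intro u' hu'
      have hne : u' ≠ u := Finset.ne_of_mem_erase hu'
      have h4 : infVec u' ξ = infVec u' ξ' := Prod.ext (hξ.1 u' hne).1 (hξ.1 u' hne).2
      rw [h4]
    have hF : ∀ ζ : A0.Adl K × A0.Adl K, L.F g m ζ
        = (WL.gauss u c ω₁ ω₂ ζ * ∏ u' ∈ (Finset.univ.erase u),
            L.Finf u' (infMat u' g) (infMat u' m) (infVec u' ζ))
          * ∏ᶠ v : HeightOneSpectrum (𝓞 K),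
            L.Ffin v (A0.finComp v g) (A0.finComp v m) (finVec v ζ) := by
      intro ζ
      rw [← hu ζ, Finset.mul_prod_erase Finset.univ
        (fun u' => L.Finf u' (infMat u' g) (infMat u' m) (infVec u' ζ)) (Finset.mem_univ u)]
      rfl
    rw [hF ξ, hF ξ', hrest]
    simp only [hfin]
    ring

/-! ## The leaf -/

/-- **A2.03.1.7 STD-LOC.** -/
theorem stdLocC915 : StdLocC := by
  intro K _ _ L _ hgood
  exact
    { good_std := fun v hv g m hadm hg hm => good_std915 L hgood v hv g m hadm hg hm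
      cpx := fun u _ => cpx915 L hgood u }

end Fermat.Agent.LT.A2.H915

end
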